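/-
S51, TEAM β (directory Fermat/Agent/S51b, namespace Fermat.Agent.S51b).
Frozen definitions shared by all files of the elliptic-curve side.  DO NOT EDIT (owner: helper11).
-/
import Mathlib
import Fermat.Prelude.Def_FLTPrelim_ModularRep

set_option autoImplicit false

namespace Fermat.Agent.S51b

open WeierstrassCurve WeierstrassCurve.Affine

/-- The `x`-coordinate of a point of a Weierstrass curve in affine coordinates
(junk value `0` at the point at infinity). -/
def xCoord {F : Type*} [CommRing F] {E : Affine F} : E.Point → F
  | .zero => 0
  | .some x _ _ => x

@[simp]
theorem xCoord_some {F : Type*} [CommRing F] {E : Affine F} {x y : F} (h : E.Nonsingular x y) :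
    xCoord (Point.some x y h) = x :=
  rfl

end Fermat.Agent.S51b
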