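/-
S51, TEAM β.  Translation identities for the division polynomials `Ψ₂Sq`, `Ψ₃`, `preΨ₄`, `preΨ' 5`
of a Weierstrass curve: with `B2 = 12x + b₂`, `B4 = 6x² + b₂x + b₄`, `B6 = Ψ₂Sq(x)`, `B8 = Ψ₃(x)`
(the `b`-invariants of the curve translated by `x`).  Owner: helper11.  Sorry-free.
-/
import Mathlib
import Fermat.Agent.S51b.Defs

set_option autoImplicit false

namespace Fermat.Agent.S51b

open WeierstrassCurve Polynomial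

variable {R : Type*} [CommRing R] (E : WeierstrassCurve R) (x e : R)

/-- `b₂` of the curve translated by `x`. -/
def B2 : R := 12 * x + E.b₂

/-- `b₄` of the curve translated by `x`. -/
def B4 : R := 6 * x ^ 2 + E.b₂ * x + E.b₄

theorem Ψ₂Sq_eval : E.Ψ₂Sq.eval x = 4 * x ^ 3 + E.b₂ * x ^ 2 + 2 * E.b₄ * x + E.b₆ := by
  simp [WeierstrassCurve.Ψ₂Sq]

theorem Ψ₃_eval :
    E.Ψ₃.eval x = 3 * x ^ 4 + E.b₂ * x ^ 3 + 3 * E.b₄ * x ^ 2 + 3 * E.b₆ * x + E.b₈ := by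
  simp [WeierstrassCurve.Ψ₃]

theorem preΨ₄_eval' :
    E.preΨ₄.eval x = 2 * x ^ 6 + E.b₂ * x ^ 5 + 5 * E.b₄ * x ^ 4 + 10 * E.b₆ * x ^ 3
      + 10 * E.b₈ * x ^ 2 + (E.b₂ * E.b₈ - E.b₄ * E.b₆) * x + (E.b₄ * E.b₈ - E.b₆ ^ 2) := by
  simp [WeierstrassCurve.preΨ₄]

theorem B_relation : 4 * E.Ψ₃.eval x = B2 E x * E.Ψ₂Sq.eval x - B4 E x ^ 2 := by
  rw [Ψ₂Sq_eval, Ψ₃_eval, B2, B4]
  linear_combination E.b_relation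

theorem c₄_eq : E.c₄ = B2 E x ^ 2 - 24 * B4 E x := by
  rw [B2, B4, WeierstrassCurve.c₄]
  ring

theorem Δ_eq : E.Δ = -B2 E x ^ 2 * E.Ψ₃.eval x - 8 * B4 E x ^ 3 - 27 * E.Ψ₂Sq.eval x ^ 2
    + 9 * B2 E x * B4 E x * E.Ψ₂Sq.eval x := by
  rw [Ψ₂Sq_eval, Ψ₃_eval, B2, B4, WeierstrassCurve.Δ]
  linear_combination (6 * x * (E.b₂ + 6 * x)) * E.b_relation

theorem preΨ₄_eval : E.preΨ₄.eval x = B4 E x * E.Ψ₃.eval x - E.Ψ₂Sq.eval x ^ 2 := by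
  rw [preΨ₄_eval', Ψ₂Sq_eval, Ψ₃_eval, B4]
  linear_combination (x ^ 2) * E.b_relation

theorem preΨ'_five : E.preΨ' 5 = E.preΨ₄ * E.Ψ₂Sq ^ 2 - E.Ψ₃ ^ 3 := by
  have h := E.preΨ'_odd 0
  simpa using h

theorem preΨ'_five_eval : (E.preΨ' 5).eval x
    = (B4 E x * E.Ψ₃.eval x - E.Ψ₂Sq.eval x ^ 2) * E.Ψ₂Sq.eval x ^ 2 - E.Ψ₃.eval x ^ 3 := by
  rw [preΨ'_five, eval_sub, eval_mul, eval_pow, eval_pow, preΨ₄_eval]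

theorem Ψ₃_eval_add : E.Ψ₃.eval (x + e)
    = 3 * e ^ 4 + B2 E x * e ^ 3 + 3 * B4 E x * e ^ 2 + 3 * E.Ψ₂Sq.eval x * e + E.Ψ₃.eval x := by
  rw [Ψ₂Sq_eval, Ψ₃_eval, Ψ₃_eval, B2, B4]
  ring

theorem Ψ₂Sq_eval_add : E.Ψ₂Sq.eval (x + e)
    = 4 * e ^ 3 + B2 E x * e ^ 2 + 2 * B4 E x * e + E.Ψ₂Sq.eval x := by
  rw [Ψ₂Sq_eval, Ψ₂Sq_eval, B2, B4]
  ring

/-- Key identity behind `x(4P) = x(P)` for a point of order five: with `e = x(2P) - x(P)`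
(so that `e * Ψ₂Sq(x) = -Ψ₃(x)`), the quantity `e * Ψ₂Sq(x + e) - Ψ₃(x + e)` is
`-Ψ₃(x) * preΨ'₅(x) / Ψ₂Sq(x)⁴`. -/
theorem four_mul_identity (he : e * E.Ψ₂Sq.eval x = -E.Ψ₃.eval x) :
    E.Ψ₂Sq.eval x ^ 4 * (e * E.Ψ₂Sq.eval (x + e) - E.Ψ₃.eval (x + e))
      = -E.Ψ₃.eval x * (E.preΨ' 5).eval x := by
  rw [preΨ'_five_eval, Ψ₃_eval_add, Ψ₂Sq_eval_add]
  generalize E.Ψ₂Sq.eval x = B6 at *
  generalize E.Ψ₃.eval x = B8 at *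
  generalize B2 E x = b2
  generalize B4 E x = b4
  have h8 : B8 = -(e * B6) := by rw [he]; ring
  subst h8
  ring

end Fermat.Agent.S51b
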