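/-
S51, TEAM β.  The algebraic heart: from a root `x1` of the 5-division polynomial, `x2 = x(2P)` and a
root `x3` of the 3-division polynomial, the invariants
`t = Δ / (x1 - x2)^6` and `ρ = (x3 - x1)(x3 - x2) / (x1 - x2)^2` satisfy the modular relations.
FROZEN STATEMENT of `alg_main` (do not change it).  Fully proved (owner: helper218).
Proof: Tate normal form.  With `B2, B4, B6, B8` the `b`-invariants translated by `x1`, the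
vanishing of the 5-division polynomial gives `b, u ≠ 0` with `B2 = (b² - 6b + 1)u`,
`B4 = (b² - b)u²`, `B6 = b²u³`, `B8 = -b³u⁴`; then `t = (b² - 11b - 1)/b`,
`ρ = ζ(ζ - b)/b²` with `x3 - x1 = ζu`, and the relations are polynomial identities.
-/
import Mathlib
import Fermat.Agent.S51b.Defs
import Fermat.Agent.S51b.Trans

set_option autoImplicit false

namespace Fermat.Agent.S51b

open WeierstrassCurve Polynomial

/-- Tate normal form: if `B6, B8 ≠ 0` and the translated `b`-invariants satisfy the `b`-relation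
and the vanishing of the 5-division polynomial, then they are the `b`-invariants of the curve
`y² + (1 - b)xy - by = x³ - bx²` scaled by `u`. -/
theorem alg_param {F : Type*} [Field F] (B2 B4 B6 B8 : F) (h6 : B6 ≠ 0) (h8 : B8 ≠ 0)
    (hi : 4 * B8 = B2 * B6 - B4 ^ 2) (hiv : (B4 * B8 - B6 ^ 2) * B6 ^ 2 - B8 ^ 3 = 0) :
    ∃ b u : F, b ≠ 0 ∧ u ≠ 0 ∧ B2 = (b ^ 2 - 6 * b + 1) * u ∧ B4 = (b ^ 2 - b) * u ^ 2 ∧
      B6 = b ^ 2 * u ^ 3 ∧ B8 = -b ^ 3 * u ^ 4 := by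
  obtain ⟨b, hbdef⟩ : ∃ b : F, b = -B8 ^ 3 / B6 ^ 4 := ⟨_, rfl⟩
  obtain ⟨u, hudef⟩ : ∃ u : F, u = B6 ^ 3 / B8 ^ 2 := ⟨_, rfl⟩
  have hb : b ≠ 0 := by
    rw [hbdef]
    exact div_ne_zero (neg_ne_zero.mpr (pow_ne_zero _ h8)) (pow_ne_zero _ h6)
  have hu : u ≠ 0 := by
    rw [hudef]
    exact div_ne_zero (pow_ne_zero _ h6) (pow_ne_zero _ h8)
  have e6 : B6 = b ^ 2 * u ^ 3 := by
    rw [hbdef, hudef]
    field_simp
  have e8 : B8 = -b ^ 3 * u ^ 4 := by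
    rw [hbdef, hudef]
    field_simp
  have e4 : B4 = (b ^ 2 - b) * u ^ 2 := by
    have h4 : B4 = (B6 ^ 4 + B8 ^ 3) / (B8 * B6 ^ 2) := by
      rw [eq_div_iff (mul_ne_zero h8 (pow_ne_zero _ h6))]
      linear_combination hiv
    rw [h4, hbdef, hudef]
    field_simp
    ring
  have e2 : B2 = (b ^ 2 - 6 * b + 1) * u := by
    have hne : b ^ 2 * u ^ 3 ≠ 0 := mul_ne_zero (pow_ne_zero _ hb) (pow_ne_zero _ hu)
    apply mul_right_cancel₀ hne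
    have hi' : 4 * (-b ^ 3 * u ^ 4) = B2 * (b ^ 2 * u ^ 3) - ((b ^ 2 - b) * u ^ 2) ^ 2 := by
      rw [← e4, ← e6, ← e8]
      exact hi
    linear_combination -hi'
  exact ⟨b, u, hb, hu, e2, e4, e6, e8⟩

/-- The key polynomial identity: the modular relation between `ρ` and `t` is a multiple of the
3-division polynomial of the Tate normal form. -/
theorem alg_key {F : Type*} [Field F] (b ζ : F) (hb : b ≠ 0) :
    b ^ 10 * (9 * (ζ * (ζ - b) / b ^ 2) ^ 4 - 26 * (ζ * (ζ - b) / b ^ 2) ^ 3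
        + 24 * (ζ * (ζ - b) / b ^ 2) ^ 2 - 6 * (ζ * (ζ - b) / b ^ 2) - 1
        + (3 * (ζ * (ζ - b) / b ^ 2) ^ 2 - 13 * (ζ * (ζ - b) / b ^ 2) ^ 3)
          * ((b ^ 2 - 11 * b - 1) / b)
        - (ζ * (ζ - b) / b ^ 2) ^ 3 * ((b ^ 2 - 11 * b - 1) / b) ^ 2)
      = (3 * b ^ 2 * ζ ^ 4 - (b ^ 4 + 6 * b ^ 3 + b ^ 2) * ζ ^ 3 + 3 * (b ^ 5 + b ^ 4) * ζ ^ 2
          - 3 * b ^ 6 * ζ + b ^ 7)
        * (3 * ζ ^ 4 + (b ^ 2 - 6 * b + 1) * ζ ^ 3 + 3 * (b ^ 2 - b) * ζ ^ 2 + 3 * b ^ 2 * ζ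
          - b ^ 3) := by
  field_simp
  ring

/-- The statement of `alg_main` for abstract field elements. -/
theorem alg_aux {F : Type*} [Field F] (B2 B4 B6 B8 D c4 x1 x2 x3 t ρ : F) (hD : D ≠ 0)
    (hi : 4 * B8 = B2 * B6 - B4 ^ 2)
    (hii : D = -B2 ^ 2 * B8 - 8 * B4 ^ 3 - 27 * B6 ^ 2 + 9 * B2 * B4 * B6)
    (hiii : c4 = B2 ^ 2 - 24 * B4)
    (hiv : (B4 * B8 - B6 ^ 2) * B6 ^ 2 - B8 ^ 3 = 0)
    (hv : 3 * (x3 - x1) ^ 4 + B2 * (x3 - x1) ^ 3 + 3 * B4 * (x3 - x1) ^ 2 + 3 * B6 * (x3 - x1)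
      + B8 = 0)
    (hx2 : x2 = x1 - B8 / B6) (h31 : x3 ≠ x1) (h32 : x3 ≠ x2)
    (ht : t = D / (x1 - x2) ^ 6) (hρ : ρ = (x3 - x1) * (x3 - x2) / (x1 - x2) ^ 2) :
    x1 ≠ x2 ∧ t ≠ 0 ∧ ρ ≠ 0 ∧ c4 ^ 3 * t = D * (t ^ 2 + 10 * t + 5) ^ 3 ∧
      9 * ρ ^ 4 - 26 * ρ ^ 3 + 24 * ρ ^ 2 - 6 * ρ - 1 + (3 * ρ ^ 2 - 13 * ρ ^ 3) * t
        - ρ ^ 3 * t ^ 2 = 0 := by
  -- Step 1: `B6 ≠ 0` and `B8 ≠ 0`.
  have h6 : B6 ≠ 0 := by
    intro h6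
    rw [h6] at hiv hi hii
    have h8 : B8 = 0 := by
      have h : B8 ^ 3 = 0 := by linear_combination -hiv
      exact pow_eq_zero_iff (by norm_num) |>.mp h
    rw [h8] at hi hii
    have h4 : B4 = 0 := by
      have h : B4 ^ 2 = 0 := by linear_combination hi
      exact pow_eq_zero_iff (by norm_num) |>.mp h
    rw [h4] at hii
    apply hD
    rw [hii]
    ring
  have h8 : B8 ≠ 0 := by
    intro h8
    rw [h8] at hiv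
    have h : B6 ^ 4 = 0 := by linear_combination -hiv
    exact h6 (pow_eq_zero_iff (by norm_num) |>.mp h)
  -- Step 2: Tate normal form.
  obtain ⟨b, u, hb, hu, rfl, rfl, rfl, rfl⟩ := alg_param B2 B4 B6 B8 h6 h8 hi hiv
  -- Step 3: the invariants in terms of `b`, `u`.
  have hDb : D = u ^ 6 * b ^ 5 * (b ^ 2 - 11 * b - 1) := by
    rw [hii]
    ring
  have hq : b ^ 2 - 11 * b - 1 ≠ 0 := by
    intro h
    apply hD
    rw [hDb, h, mul_zero]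
  have hc : c4 = u ^ 2 * (b ^ 4 - 12 * b ^ 3 + 14 * b ^ 2 + 12 * b + 1) := by
    rw [hiii]
    ring
  have h12 : x1 - x2 = -b * u := by
    rw [hx2]
    field_simp
    ring
  have h12' : x1 - x2 ≠ 0 := by
    rw [h12]
    exact mul_ne_zero (neg_ne_zero.mpr hb) hu
  have ht' : t = (b ^ 2 - 11 * b - 1) / b := by
    rw [ht, h12, hDb]
    field_simp
  have ht0 : t ≠ 0 := by
    rw [ht']
    exact div_ne_zero hq hb
  -- Step 4: the root of the 3-division polynomial.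
  obtain ⟨ζ, hζ⟩ : ∃ ζ : F, x3 - x1 = ζ * u := ⟨(x3 - x1) / u, by field_simp⟩
  have h32' : x3 - x2 = (ζ - b) * u := by linear_combination hζ + h12
  have hψ : 3 * ζ ^ 4 + (b ^ 2 - 6 * b + 1) * ζ ^ 3 + 3 * (b ^ 2 - b) * ζ ^ 2 + 3 * b ^ 2 * ζ
      - b ^ 3 = 0 := by
    rw [hζ] at hv
    have hu4 : u ^ 4 ≠ 0 := pow_ne_zero _ hu
    apply mul_left_cancel₀ hu4
    linear_combination hv
  have hρ' : ρ = ζ * (ζ - b) / b ^ 2 := by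
    rw [hρ, hζ, h32', h12]
    field_simp
  have hζ0 : ζ ≠ 0 := by
    intro h
    apply h31
    rw [h, zero_mul] at hζ
    exact sub_eq_zero.mp hζ
  have hζb : ζ - b ≠ 0 := by
    intro h
    apply h32
    rw [h, zero_mul] at h32'
    exact sub_eq_zero.mp h32'
  have hρ0 : ρ ≠ 0 := by
    rw [hρ']
    exact div_ne_zero (mul_ne_zero hζ0 hζb) (pow_ne_zero _ hb)
  refine ⟨sub_ne_zero.mp h12', ht0, hρ0, ?_, ?_⟩
  · rw [hc, hDb, ht']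
    field_simp
    ring
  · have hb10 : b ^ 10 ≠ 0 := pow_ne_zero _ hb
    apply mul_left_cancel₀ hb10
    rw [mul_zero, hρ', ht', alg_key b ζ hb, hψ, mul_zero]

theorem alg_main {F : Type*} [Field F] [CharZero F] (E : WeierstrassCurve F) (hΔ : E.Δ ≠ 0)
    (x1 x2 x3 : F) (h5 : (E.preΨ' 5).eval x1 = 0)
    (hx2 : x2 = x1 - E.Ψ₃.eval x1 / E.Ψ₂Sq.eval x1)
    (h3 : E.Ψ₃.eval x3 = 0) (h31 : x3 ≠ x1) (h32 : x3 ≠ x2) (t ρ : F)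
    (ht : t = E.Δ / (x1 - x2) ^ 6) (hρ : ρ = (x3 - x1) * (x3 - x2) / (x1 - x2) ^ 2) :
    x1 ≠ x2 ∧ t ≠ 0 ∧ ρ ≠ 0 ∧ E.c₄ ^ 3 * t = E.Δ * (t ^ 2 + 10 * t + 5) ^ 3 ∧
      9 * ρ ^ 4 - 26 * ρ ^ 3 + 24 * ρ ^ 2 - 6 * ρ - 1 + (3 * ρ ^ 2 - 13 * ρ ^ 3) * t
        - ρ ^ 3 * t ^ 2 = 0 := by
  have hv : 3 * (x3 - x1) ^ 4 + B2 E x1 * (x3 - x1) ^ 3 + 3 * B4 E x1 * (x3 - x1) ^ 2
      + 3 * E.Ψ₂Sq.eval x1 * (x3 - x1) + E.Ψ₃.eval x1 = 0 := by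
    rw [← Ψ₃_eval_add, add_sub_cancel, h3]
  have hiv : (B4 E x1 * E.Ψ₃.eval x1 - E.Ψ₂Sq.eval x1 ^ 2) * E.Ψ₂Sq.eval x1 ^ 2
      - E.Ψ₃.eval x1 ^ 3 = 0 := by
    rw [← preΨ'_five_eval, h5]
  exact alg_aux (B2 E x1) (B4 E x1) (E.Ψ₂Sq.eval x1) (E.Ψ₃.eval x1) E.Δ E.c₄ x1 x2 x3 t ρ hΔ
    (B_relation E x1) (Δ_eq E x1) (c₄_eq E x1) hiv hv hx2 h31 h32 ht hρ

end Fermat.Agent.S51b
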