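/-
S51, TEAM β.  The x-coordinate of points: negation, equality, doubling formula.
FROZEN STATEMENTS (do not change them).  All proofs complete (owner of the proofs: helper211).
-/
import Mathlib
import Fermat.Agent.S51b.Defs
import Fermat.Agent.S51b.Trans

set_option autoImplicit false

namespace Fermat.Agent.S51b

open WeierstrassCurve WeierstrassCurve.Affine Polynomial

variable {F : Type*} [Field F] [DecidableEq F] {E : Affine F}

-- (`[DecidableEq F]` is part of the frozen signature although the proof does not need it.)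
set_option linter.unusedSectionVars false in
theorem xCoord_neg (P : E.Point) : xCoord (-P) = xCoord P := by
  rcases P with _ | ⟨x, y, h⟩
  · rfl
  · rfl

set_option linter.unusedSectionVars false in
theorem xCoord_eq_iff {P Q : E.Point} (hP : P ≠ 0) (hQ : Q ≠ 0) :
    xCoord P = xCoord Q ↔ P = Q ∨ P = -Q := by
  rcases P with _ | ⟨x₁, y₁, h₁⟩
  · exact absurd rfl hP
  rcases Q with _ | ⟨x₂, y₂, h₂⟩
  · exact absurd rfl hQ
  exact Point.X_eq_iff

omit [DecidableEq F] in
/-- On the curve, `Ψ₂Sq(x) = (2y + a₁x + a₃)²`, where `2y + a₁x + a₃ = y - negY x y`. -/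
theorem doubling_Ψ₂Sq_eval_eq {x y : F} (h : E.Equation x y) :
    E.Ψ₂Sq.eval x = (y - E.negY x y) ^ 2 := by
  have eq := (E.equation_iff x y).mp h
  rw [Ψ₂Sq_eval]
  simp only [negY, WeierstrassCurve.b₂, WeierstrassCurve.b₄, WeierstrassCurve.b₆]
  linear_combination (-4 : F) * eq

omit [DecidableEq F] in
/-- The polynomial identity behind the duplication formula: with `N = 3x² + 2a₂x + a₄ - a₁y`
(numerator of the slope of the tangent) and `D = 2y + a₁x + a₃ = y - negY x y` (its denominator),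
`N² + a₁ND - (a₂ + 3x)D² + Ψ₃(x) = 0` on the curve. -/
theorem doubling_key {x y : F} (h : E.Equation x y) :
    (3 * x ^ 2 + 2 * E.a₂ * x + E.a₄ - E.a₁ * y) ^ 2
      + E.a₁ * (3 * x ^ 2 + 2 * E.a₂ * x + E.a₄ - E.a₁ * y) * (y - E.negY x y)
      - (E.a₂ + 3 * x) * (y - E.negY x y) ^ 2 + E.Ψ₃.eval x = 0 := by
  have eq := (E.equation_iff x y).mp h
  rw [Ψ₃_eval]
  simp only [negY, WeierstrassCurve.b₂, WeierstrassCurve.b₄, WeierstrassCurve.b₆,
    WeierstrassCurve.b₈]
  linear_combination (-(E.a₁ ^ 2 + 4 * E.a₂ + 12 * x)) * eq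

/-- A point `(x, y)` is `2`-torsion iff `y = negY x y`. -/
theorem doubling_add_self_eq_zero_iff {x y : F} (h : E.Nonsingular x y) :
    Point.some x y h + Point.some x y h = 0 ↔ y = E.negY x y := by
  constructor
  · intro h2
    by_contra hy
    rw [Point.add_self_of_Y_ne hy] at h2
    exact Point.some_ne_zero _ h2
  · intro hy
    exact Point.add_self_of_Y_eq hy

/-- `2P = 0` iff the `2`-division polynomial `Ψ₂Sq = 4X³ + b₂X² + 2b₄X + b₆` vanishes at `x(P)`. -/
theorem two_zsmul_eq_zero_iff {P : E.Point} (hP : P ≠ 0) :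
    (2 : ℤ) • P = 0 ↔ E.Ψ₂Sq.eval (xCoord P) = 0 := by
  rcases P with _ | ⟨x, y, h⟩
  · exact absurd rfl hP
  rw [two_zsmul, xCoord_some, doubling_Ψ₂Sq_eval_eq h.1, pow_eq_zero_iff two_ne_zero, sub_eq_zero]
  exact doubling_add_self_eq_zero_iff h

/-- The duplication formula `x(2P) = x - Ψ₃(x) / Ψ₂Sq(x)`. -/
theorem xCoord_two_zsmul {P : E.Point} (hP : P ≠ 0) (h2 : (2 : ℤ) • P ≠ 0) :
    xCoord ((2 : ℤ) • P) = xCoord P - E.Ψ₃.eval (xCoord P) / E.Ψ₂Sq.eval (xCoord P) := by
  rcases P with _ | ⟨x, y, h⟩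
  · exact absurd rfl hP
  have hy : y ≠ E.negY x y := by
    intro hy
    apply h2
    rw [two_zsmul]
    exact Point.add_self_of_Y_eq hy
  have hD : y - E.negY x y ≠ 0 := sub_ne_zero.mpr hy
  have key := doubling_key h.1
  rw [two_zsmul, Point.add_self_of_Y_ne hy, xCoord_some, xCoord_some, doubling_Ψ₂Sq_eval_eq h.1,
    slope_of_Y_ne rfl hy, addX]
  generalize y - E.negY x y = D at hD key ⊢
  generalize E.Ψ₃.eval x = P3 at key ⊢
  field_simp
  linear_combination key

end Fermat.Agent.S51b
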