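/-
S51, TEAM β.  The Galois action of `Gal(ℚ̄/ℚ)` on points (frozen Prelude instance
`WeierstrassCurve.Affine.Point.instSMulAlgEquiv`, i.e. `σ • P = Point.map σ.toAlgHom P`)
in terms of `x`-coordinates; Galois-fixed elements of `ℚ̄` are rational.
FROZEN STATEMENTS (do not change them).  All three statements are fully proved.
-/
import Mathlib
import Fermat.Agent.S51b.Defs

set_option autoImplicit false

namespace Fermat.Agent.S51b

open WeierstrassCurve WeierstrassCurve.Affine WeierstrassCurve.Affine.Point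

variable {W' : Affine ℚ}

theorem xCoord_smul (σ : AlgebraicClosure ℚ ≃ₐ[ℚ] AlgebraicClosure ℚ)
    (P : (W'⁄(AlgebraicClosure ℚ)).Point) : xCoord (σ • P) = σ (xCoord P) := by
  rcases P with _ | ⟨x, y, h⟩
  · exact (map_zero σ).symm
  · rfl

theorem smul_eq_zero_iff (σ : AlgebraicClosure ℚ ≃ₐ[ℚ] AlgebraicClosure ℚ)
    (P : (W'⁄(AlgebraicClosure ℚ)).Point) : σ • P = 0 ↔ P = 0 := by
  constructor
  · intro h
    rw [algEquiv_smul_def] at h
    exact Point.map_injective (W' := W') σ.toAlgHom (h.trans (Point.map_zero σ.toAlgHom).symm)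
  · intro hP
    rw [hP]
    rfl

/-- `ℚ̄` is an algebraic closure of `ℚ` for the `ℚ`-algebra structure used in the frozen
statements (the canonical `DivisionRing.toRatAlgebra`, which is propositionally equal to
`AlgebraicClosure.instAlgebra ℚ`). -/
theorem galois_isAlgClosure : IsAlgClosure ℚ (AlgebraicClosure ℚ) := by
  have h : (DivisionRing.toRatAlgebra : Algebra ℚ (AlgebraicClosure ℚ)) =
      AlgebraicClosure.instAlgebra ℚ := Subsingleton.elim _ _
  rw [h]
  infer_instance

theorem galois_isGalois : IsGalois ℚ (AlgebraicClosure ℚ) :=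
  have := galois_isAlgClosure
  IsAlgClosure.isGalois ℚ (AlgebraicClosure ℚ)

theorem exists_rat_of_fixed (a : AlgebraicClosure ℚ)
    (h : ∀ σ : AlgebraicClosure ℚ ≃ₐ[ℚ] AlgebraicClosure ℚ, σ a = a) :
    ∃ q : ℚ, algebraMap ℚ (AlgebraicClosure ℚ) q = a := by
  have : IsGalois ℚ (AlgebraicClosure ℚ) := galois_isGalois
  exact (InfiniteGalois.mem_range_algebraMap_iff_fixed (k := ℚ) (K := AlgebraicClosure ℚ) a).mpr h

end Fermat.Agent.S51b
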