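/-
S51, TEAM β.  3- and 5-torsion points versus roots of the division polynomials `Ψ₃` and `preΨ' 5`.
FROZEN STATEMENTS (do not change them).  All proofs complete (worker: helper212); they rely on the
frozen statements of `Doubling.lean` and on the identities of `Trans.lean`.
-/
import Mathlib
import Fermat.Agent.S51b.Defs
import Fermat.Agent.S51b.Trans
import Fermat.Agent.S51b.Doubling

set_option autoImplicit false

namespace Fermat.Agent.S51b

open WeierstrassCurve WeierstrassCurve.Affine Polynomial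

/-! ### Auxiliary group-theoretic identities -/

theorem torsion_aux_three_eq {A : Type*} [AddCommGroup A] (P : A) :
    (3 : ℤ) • P = (2 : ℤ) • P + P := by
  rw [show (3 : ℤ) = 2 + 1 by norm_num, add_zsmul, one_zsmul]

theorem torsion_aux_five_eq {A : Type*} [AddCommGroup A] (P : A) :
    (5 : ℤ) • P = (2 : ℤ) • ((2 : ℤ) • P) + P := by
  rw [smul_smul, show (5 : ℤ) = 2 * 2 + 1 by norm_num, add_zsmul, one_zsmul]

theorem torsion_aux_three_eq' {A : Type*} [AddCommGroup A] (P : A) :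
    (3 : ℤ) • P = (2 : ℤ) • ((2 : ℤ) • P) - P := by
  rw [smul_smul, show (2 : ℤ) * 2 = 3 + 1 by norm_num, add_zsmul, one_zsmul, add_sub_cancel_right]

theorem torsion_aux_eq_zero_of_two_zsmul_eq_self {A : Type*} [AddCommGroup A] {P : A}
    (h : (2 : ℤ) • P = P) : P = 0 := by
  rw [two_zsmul] at h
  exact add_left_cancel (a := P) (by rw [h, add_zero])

theorem torsion_aux_eq_zero_of_three_of_five {A : Type*} [AddCommGroup A] {P : A}
    (h3 : (3 : ℤ) • P = 0) (h5 : (5 : ℤ) • P = 0) : P = 0 := by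
  have h : P = (2 : ℤ) • ((3 : ℤ) • P) - (5 : ℤ) • P := by
    rw [smul_smul, ← sub_smul]
    norm_num
  rw [h, h3, h5, smul_zero, sub_zero]

variable {F : Type*} [Field F] [DecidableEq F] {E : Affine F}

set_option linter.unusedSectionVars false in
/-- If `Ψ₂Sq` and `Ψ₃` have a common root then `Δ = 0`. -/
theorem Δ_eq_zero_of_common_root (x : F) (h2 : E.Ψ₂Sq.eval x = 0) (h3 : E.Ψ₃.eval x = 0) :
    E.Δ = 0 := by
  have hB := B_relation E x
  rw [h2, h3] at hB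
  have hB4 : B4 E x = 0 := by
    have h : B4 E x ^ 2 = 0 := by linear_combination hB
    exact (pow_eq_zero_iff two_ne_zero).mp h
  rw [Δ_eq E x, h2, h3, hB4]
  ring

theorem Ψ₃_eval_xCoord {P : E.Point} (hP : P ≠ 0) (h3 : (3 : ℤ) • P = 0) :
    E.Ψ₃.eval (xCoord P) = 0 := by
  have h2 : (2 : ℤ) • P = -P := by
    rw [torsion_aux_three_eq] at h3
    exact eq_neg_of_add_eq_zero_left h3
  have h2ne : (2 : ℤ) • P ≠ 0 := by
    rw [h2]
    exact neg_ne_zero.mpr hP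
  have hΨ2 : E.Ψ₂Sq.eval (xCoord P) ≠ 0 := fun h => h2ne ((two_zsmul_eq_zero_iff hP).mpr h)
  have hx := xCoord_two_zsmul hP h2ne
  rw [h2, xCoord_neg] at hx
  have h0 : E.Ψ₃.eval (xCoord P) / E.Ψ₂Sq.eval (xCoord P) = 0 := by linear_combination hx
  rcases div_eq_zero_iff.mp h0 with h | h
  · exact h
  · exact absurd h hΨ2

theorem three_zsmul_eq_zero (hΔ : E.Δ ≠ 0) {P : E.Point} (hP : P ≠ 0)
    (h : E.Ψ₃.eval (xCoord P) = 0) : (3 : ℤ) • P = 0 := by
  have hΨ2 : E.Ψ₂Sq.eval (xCoord P) ≠ 0 := fun h2 => hΔ (Δ_eq_zero_of_common_root _ h2 h)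
  have h2ne : (2 : ℤ) • P ≠ 0 := fun h2 => hΨ2 ((two_zsmul_eq_zero_iff hP).mp h2)
  have hx := xCoord_two_zsmul hP h2ne
  rw [h, zero_div, sub_zero] at hx
  rcases (xCoord_eq_iff h2ne hP).mp hx with h' | h'
  · exact absurd (torsion_aux_eq_zero_of_two_zsmul_eq_self h') hP
  · rw [torsion_aux_three_eq, h', neg_add_cancel]

theorem preΨ'_five_eval_xCoord {P : E.Point} (hP : P ≠ 0) (h5 : (5 : ℤ) • P = 0) :
    (E.preΨ' 5).eval (xCoord P) = 0 := by
  -- `2P ≠ 0`
  have h2ne : (2 : ℤ) • P ≠ 0 := by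
    intro h2
    apply hP
    rw [torsion_aux_five_eq, h2, smul_zero, zero_add] at h5
    exact h5
  have hB6 : E.Ψ₂Sq.eval (xCoord P) ≠ 0 := fun h => h2ne ((two_zsmul_eq_zero_iff hP).mpr h)
  have hx2 := xCoord_two_zsmul hP h2ne
  -- `4P = -P ≠ 0`
  have h4 : (2 : ℤ) • ((2 : ℤ) • P) = -P := by
    rw [torsion_aux_five_eq] at h5
    exact eq_neg_of_add_eq_zero_left h5
  have h4ne : (2 : ℤ) • ((2 : ℤ) • P) ≠ 0 := by
    rw [h4]
    exact neg_ne_zero.mpr hP
  have hB6' : E.Ψ₂Sq.eval (xCoord ((2 : ℤ) • P)) ≠ 0 :=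
    fun h => h4ne ((two_zsmul_eq_zero_iff h2ne).mpr h)
  have hx4 := xCoord_two_zsmul h2ne h4ne
  rw [h4, xCoord_neg] at hx4
  -- `B8 ≠ 0`
  have hB8 : E.Ψ₃.eval (xCoord P) ≠ 0 := by
    intro h8
    rw [h8, zero_div, sub_zero] at hx2
    rcases (xCoord_eq_iff h2ne hP).mp hx2 with h' | h'
    · exact hP (torsion_aux_eq_zero_of_two_zsmul_eq_self h')
    · apply hP
      apply torsion_aux_eq_zero_of_three_of_five _ h5
      rw [torsion_aux_three_eq, h', neg_add_cancel]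
  -- the key identity
  set x := xCoord P with hx
  set e : F := -(E.Ψ₃.eval x / E.Ψ₂Sq.eval x) with he
  have hx2' : xCoord ((2 : ℤ) • P) = x + e := by rw [hx2, he]; ring
  have hee : e * E.Ψ₂Sq.eval x = -E.Ψ₃.eval x := by
    rw [he]
    field_simp
  rw [hx2'] at hx4 hB6'
  have hkey : e * E.Ψ₂Sq.eval (x + e) - E.Ψ₃.eval (x + e) = 0 := by
    have h1 : E.Ψ₃.eval (x + e) / E.Ψ₂Sq.eval (x + e) = e := by linear_combination hx4
    have h1' := (div_eq_iff hB6').mp h1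
    linear_combination -h1'
  have hid := four_mul_identity E x e hee
  rw [hkey, mul_zero] at hid
  rcases mul_eq_zero.mp hid.symm with h | h
  · exact absurd (neg_eq_zero.mp h) hB8
  · exact h

theorem five_zsmul_eq_zero (hΔ : E.Δ ≠ 0) {P : E.Point} (hP : P ≠ 0)
    (h : (E.preΨ' 5).eval (xCoord P) = 0) : (5 : ℤ) • P = 0 := by
  have h5 := preΨ'_five_eval E (xCoord P)
  rw [h] at h5
  -- `B6 ≠ 0`
  have hB6 : E.Ψ₂Sq.eval (xCoord P) ≠ 0 := by
    intro h6
    rw [h6] at h5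
    have h8 : E.Ψ₃.eval (xCoord P) ^ 3 = 0 := by linear_combination h5
    exact hΔ (Δ_eq_zero_of_common_root _ h6 ((pow_eq_zero_iff three_ne_zero).mp h8))
  -- `B8 ≠ 0`
  have hB8 : E.Ψ₃.eval (xCoord P) ≠ 0 := by
    intro h8
    rw [h8] at h5
    have h6 : E.Ψ₂Sq.eval (xCoord P) ^ 4 = 0 := by linear_combination h5
    exact hB6 ((pow_eq_zero_iff four_ne_zero).mp h6)
  have h2ne : (2 : ℤ) • P ≠ 0 := fun h2 => hB6 ((two_zsmul_eq_zero_iff hP).mp h2)
  have hx2 := xCoord_two_zsmul hP h2ne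
  set x := xCoord P with hx
  set e : F := -(E.Ψ₃.eval x / E.Ψ₂Sq.eval x) with he
  have hx2' : xCoord ((2 : ℤ) • P) = x + e := by rw [hx2, he]; ring
  have hee : e * E.Ψ₂Sq.eval x = -E.Ψ₃.eval x := by
    rw [he]
    field_simp
  have hid := four_mul_identity E x e hee
  rw [h, mul_zero] at hid
  have hkey : e * E.Ψ₂Sq.eval (x + e) - E.Ψ₃.eval (x + e) = 0 := by
    rcases mul_eq_zero.mp hid with h' | h'
    · exact absurd ((pow_eq_zero_iff four_ne_zero).mp h') hB6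
    · exact h'
  -- `Ψ₂Sq(x2) ≠ 0`
  have hB6' : E.Ψ₂Sq.eval (x + e) ≠ 0 := by
    intro h6
    rw [h6, mul_zero, zero_sub] at hkey
    exact hΔ (Δ_eq_zero_of_common_root _ h6 (neg_eq_zero.mp hkey))
  have h4ne : (2 : ℤ) • ((2 : ℤ) • P) ≠ 0 := by
    intro h4
    apply hB6'
    rw [← hx2']
    exact (two_zsmul_eq_zero_iff h2ne).mp h4
  have hx4 := xCoord_two_zsmul h2ne h4ne
  rw [hx2'] at hx4
  have hx4' : xCoord ((2 : ℤ) • ((2 : ℤ) • P)) = xCoord P := by
    rw [hx4, ← hx]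
    have h1 : E.Ψ₃.eval (x + e) / E.Ψ₂Sq.eval (x + e) = e := by
      rw [div_eq_iff hB6']
      linear_combination -hkey
    rw [h1]
    ring
  rcases (xCoord_eq_iff h4ne hP).mp hx4' with h' | h'
  · exfalso
    apply hB8
    apply Ψ₃_eval_xCoord hP
    rw [torsion_aux_three_eq', h', sub_self]
  · rw [torsion_aux_five_eq, h', neg_add_cancel]

end Fermat.Agent.S51b
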