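/-
S51, TEAM β.  Assembly: if both the mod 3 and the mod 5 representation of a Weierstrass curve over
`ℤ` (with `Δ ≠ 0`) are reducible, the rational invariants `ρ`, `t` exist.  Owner: helper11.
This file is sorry-free (it depends on the frozen statements of the imported files).
-/
import Mathlib
import Fermat.Agent.S51b.Defs
import Fermat.Agent.S51b.Doubling
import Fermat.Agent.S51b.Torsion
import Fermat.Agent.S51b.Galois
import Fermat.Agent.S51b.Stable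
import Fermat.Agent.S51b.Alg

set_option autoImplicit false

namespace Fermat.Agent.S51b

open WeierstrassCurve WeierstrassCurve.Affine WeierstrassCurve.Affine.Point

section
variable {W' : Affine ℚ}

/-- `σ` commutes with multiplication by 2. -/
theorem assembly_smul_two (σ : AlgebraicClosure ℚ ≃ₐ[ℚ] AlgebraicClosure ℚ)
    (P : (W'⁄(AlgebraicClosure ℚ)).Point) : σ • ((2 : ℤ) • P) = (2 : ℤ) • (σ • P) :=
  algEquiv_smul_zsmul σ 2 P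

/-- Galois action on the pair `(x(P), x(2P))` for a stable subgroup of order 5. -/
theorem assembly_swap (P : (W'⁄(AlgebraicClosure ℚ)).Point) (hP5 : (5 : ℤ) • P = 0)
    (σ : AlgebraicClosure ℚ ≃ₐ[ℚ] AlgebraicClosure ℚ)
    (hσ : σ • P = P ∨ σ • P = -P ∨ σ • P = (2 : ℤ) • P ∨ σ • P = -((2 : ℤ) • P)) :
    (σ (xCoord P) = xCoord P ∧ σ (xCoord ((2 : ℤ) • P)) = xCoord ((2 : ℤ) • P)) ∨
    (σ (xCoord P) = xCoord ((2 : ℤ) • P) ∧ σ (xCoord ((2 : ℤ) • P)) = xCoord P) := by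
  have h4 : (2 : ℤ) • ((2 : ℤ) • P) = -P := by
    have : (2 : ℤ) • ((2 : ℤ) • P) + P = 0 := by
      rw [← hP5]; module
    exact eq_neg_of_add_eq_zero_left this
  rw [← xCoord_smul, ← xCoord_smul, assembly_smul_two]
  rcases hσ with h | h | h | h
  · left; rw [h]; exact ⟨rfl, rfl⟩
  · left; rw [h]
    refine ⟨xCoord_neg P, ?_⟩
    rw [zsmul_neg, xCoord_neg]
  · right; rw [h, h4]
    exact ⟨rfl, xCoord_neg P⟩
  · right; rw [h, zsmul_neg, h4, neg_neg]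
    exact ⟨xCoord_neg _, rfl⟩


theorem exists_invariants_aux (W' : Affine ℚ) (hΔ : (W'⁄(AlgebraicClosure ℚ)).Δ ≠ 0)
    (P Q : (W'⁄(AlgebraicClosure ℚ)).Point)
    (hP : P ≠ 0) (hP5 : (5 : ℤ) • P = 0) (hQ : Q ≠ 0) (hQ3 : (3 : ℤ) • Q = 0)
    (hσQ : ∀ σ : AlgebraicClosure ℚ ≃ₐ[ℚ] AlgebraicClosure ℚ, σ • Q = Q ∨ σ • Q = -Q)
    (hσP : ∀ σ : AlgebraicClosure ℚ ≃ₐ[ℚ] AlgebraicClosure ℚ,
        σ • P = P ∨ σ • P = -P ∨ σ • P = (2 : ℤ) • P ∨ σ • P = -((2 : ℤ) • P)) :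
    ∃ ρ t : ℚ, ρ ≠ 0 ∧ t ≠ 0 ∧
      9 * ρ ^ 4 - 26 * ρ ^ 3 + 24 * ρ ^ 2 - 6 * ρ - 1 + (3 * ρ ^ 2 - 13 * ρ ^ 3) * t
        - ρ ^ 3 * t ^ 2 = 0 ∧
      W'.c₄ ^ 3 * t = W'.Δ * (t ^ 2 + 10 * t + 5) ^ 3 := by
  -- `2P ≠ 0`
  have h2P : (2 : ℤ) • P ≠ 0 := by
    intro h
    apply hP
    have : P = (5 : ℤ) • P - (2 : ℤ) • ((2 : ℤ) • P) := by module
    rw [this, hP5, h, zsmul_zero, sub_zero]
  have hx2' : xCoord ((2 : ℤ) • P) = xCoord P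
      - (W'⁄(AlgebraicClosure ℚ)).Ψ₃.eval (xCoord P)
        / (W'⁄(AlgebraicClosure ℚ)).Ψ₂Sq.eval (xCoord P) :=
    xCoord_two_zsmul hP h2P
  have h5 := preΨ'_five_eval_xCoord hP hP5
  have h3 := Ψ₃_eval_xCoord hQ hQ3
  have h31 : xCoord Q ≠ xCoord P := by
    intro h
    have h3P : (3 : ℤ) • P = 0 := by
      rcases (xCoord_eq_iff hQ hP).mp h with h | h
      · rw [← h, hQ3]
      · have : (3 : ℤ) • P = -((3 : ℤ) • Q) := by rw [h]; module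
        rw [this, hQ3, _root_.neg_zero]
    apply hP
    have : P = (2 : ℤ) • ((3 : ℤ) • P) - (5 : ℤ) • P := by module
    rw [this, hP5, h3P, zsmul_zero, sub_zero]
  have h32 : xCoord Q ≠ xCoord ((2 : ℤ) • P) := by
    intro h
    have h6 : (3 : ℤ) • ((2 : ℤ) • P) = 0 := by
      rcases (xCoord_eq_iff hQ h2P).mp h with h | h
      · rw [← h, hQ3]
      · have : (3 : ℤ) • ((2 : ℤ) • P) = -((3 : ℤ) • Q) := by rw [h]; module
        rw [this, hQ3, _root_.neg_zero]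
    apply hP
    have : P = (3 : ℤ) • ((2 : ℤ) • P) - (5 : ℤ) • P := by module
    rw [this, hP5, h6, sub_zero]
  obtain ⟨h12, ht0, hρ0, hj, hR⟩ := alg_main (W'⁄(AlgebraicClosure ℚ)) hΔ (xCoord P)
    (xCoord ((2 : ℤ) • P)) (xCoord Q) h5 hx2' h3 h31 h32 _ _ rfl rfl
  -- Galois invariance
  have hfix3 : ∀ σ : AlgebraicClosure ℚ ≃ₐ[ℚ] AlgebraicClosure ℚ, σ (xCoord Q) = xCoord Q := by
    intro σ
    rw [← xCoord_smul]
    rcases hσQ σ with h | h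
    · rw [h]
    · rw [h, xCoord_neg]
  have hΔK : (W'⁄(AlgebraicClosure ℚ)).Δ = algebraMap ℚ (AlgebraicClosure ℚ) W'.Δ :=
    WeierstrassCurve.map_Δ W' (algebraMap ℚ (AlgebraicClosure ℚ))
  have hc₄K : (W'⁄(AlgebraicClosure ℚ)).c₄ = algebraMap ℚ (AlgebraicClosure ℚ) W'.c₄ :=
    WeierstrassCurve.map_c₄ W' (algebraMap ℚ (AlgebraicClosure ℚ))
  have hfixt : ∀ σ : AlgebraicClosure ℚ ≃ₐ[ℚ] AlgebraicClosure ℚ,
      σ ((W'⁄(AlgebraicClosure ℚ)).Δ / (xCoord P - xCoord ((2 : ℤ) • P)) ^ 6)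
        = (W'⁄(AlgebraicClosure ℚ)).Δ / (xCoord P - xCoord ((2 : ℤ) • P)) ^ 6 := by
    intro σ
    have hσΔ : σ (W'⁄(AlgebraicClosure ℚ)).Δ = (W'⁄(AlgebraicClosure ℚ)).Δ := by
      rw [hΔK, σ.commutes]
    rw [map_div₀, map_pow, map_sub, hσΔ]
    rcases assembly_swap P hP5 σ (hσP σ) with ⟨h1, h2⟩ | ⟨h1, h2⟩
    · rw [h1, h2]
    · rw [h1, h2]
      congr 1
      ring
  have hfixρ : ∀ σ : AlgebraicClosure ℚ ≃ₐ[ℚ] AlgebraicClosure ℚ,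
      σ ((xCoord Q - xCoord P) * (xCoord Q - xCoord ((2 : ℤ) • P))
          / (xCoord P - xCoord ((2 : ℤ) • P)) ^ 2)
        = (xCoord Q - xCoord P) * (xCoord Q - xCoord ((2 : ℤ) • P))
          / (xCoord P - xCoord ((2 : ℤ) • P)) ^ 2 := by
    intro σ
    rw [map_div₀, map_pow, map_mul, map_sub, map_sub, map_sub, hfix3 σ]
    rcases assembly_swap P hP5 σ (hσP σ) with ⟨h1, h2⟩ | ⟨h1, h2⟩
    · rw [h1, h2]
    · rw [h1, h2]
      congr 1 <;> ring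
  obtain ⟨t, ht⟩ := exists_rat_of_fixed _ hfixt
  obtain ⟨ρ, hρ⟩ := exists_rat_of_fixed _ hfixρ
  rw [← ht] at ht0 hj hR
  rw [← hρ] at hρ0 hR
  have hinj : Function.Injective (algebraMap ℚ (AlgebraicClosure ℚ)) :=
    (algebraMap ℚ (AlgebraicClosure ℚ)).injective
  refine ⟨ρ, t, ?_, ?_, ?_, ?_⟩
  · rintro rfl
    exact hρ0 (_root_.map_zero _)
  · rintro rfl
    exact ht0 (_root_.map_zero _)
  · apply hinj
    rw [_root_.map_zero, ← hR]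
    simp only [map_sub, map_add, map_mul, map_pow, map_ofNat, map_one]
  · apply hinj
    rw [hc₄K, hΔK] at hj
    rw [map_mul, map_mul, map_pow, map_pow, hj]
    simp only [map_add, map_mul, map_pow, map_ofNat]


end

theorem exists_invariants (W : WeierstrassCurve ℤ) (hΔ : W.Δ ≠ 0)
    (h : ¬ (W.ModRepIsIrreducible 3 ∨ W.ModRepIsIrreducible 5)) :
    ∃ ρ t : ℚ, ρ ≠ 0 ∧ t ≠ 0 ∧
      9 * ρ ^ 4 - 26 * ρ ^ 3 + 24 * ρ ^ 2 - 6 * ρ - 1 + (3 * ρ ^ 2 - 13 * ρ ^ 3) * t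
        - ρ ^ 3 * t ^ 2 = 0 ∧
      (W.c₄ : ℚ) ^ 3 * t = (W.Δ : ℚ) * (t ^ 2 + 10 * t + 5) ^ 3 := by
  rw [not_or] at h
  obtain ⟨h3, h5⟩ := h
  have hΔ' : (W.map (Int.castRingHom ℚ)).Δ = (W.Δ : ℚ) :=
    WeierstrassCurve.map_Δ W (Int.castRingHom ℚ)
  have hc₄' : (W.map (Int.castRingHom ℚ)).c₄ = (W.c₄ : ℚ) :=
    WeierstrassCurve.map_c₄ W (Int.castRingHom ℚ)
  have hΔK : (Affine.baseChange (W.map (Int.castRingHom ℚ)) (AlgebraicClosure ℚ)).Δ ≠ 0 := by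
    have e : (Affine.baseChange (W.map (Int.castRingHom ℚ)) (AlgebraicClosure ℚ)).Δ
        = algebraMap ℚ (AlgebraicClosure ℚ) (W.map (Int.castRingHom ℚ)).Δ :=
      WeierstrassCurve.map_Δ (W.map (Int.castRingHom ℚ)) (algebraMap ℚ (AlgebraicClosure ℚ))
    rw [e, hΔ']
    intro h0
    have h1 : ((W.Δ : ℤ) : ℚ) = 0 :=
      (algebraMap ℚ (AlgebraicClosure ℚ)).injective (h0.trans (_root_.map_zero _).symm)
    exact hΔ (by exact_mod_cast h1)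
  obtain ⟨P, Q, hP, hP5, hQ, hQ3, hσQ, hσP⟩ :=
    exists_points (W.map (Int.castRingHom ℚ)) hΔK h3 h5
  obtain ⟨ρ, t, hρ, ht, hR, hj⟩ :=
    exists_invariants_aux (W.map (Int.castRingHom ℚ)) hΔK P Q hP hP5 hQ hQ3 hσQ hσP
  exact ⟨ρ, t, hρ, ht, hR, by rw [← hc₄', ← hΔ']; exact hj⟩

end Fermat.Agent.S51b
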