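import Mathlib
import Fermat.Agent.S51b.NT.RhoT
import Fermat.Agent.S51b.NT.Endgame

set_option autoImplicit false

namespace Fermat.Agent.S51b

/-- Number-theoretic core of S51 (team β): the modular relation between `ρ` and `t`
has only five rational solutions, none compatible with a semistable curve. -/
theorem nt_main (c4 c6 Δ : ℤ) (hΔ : Δ ≠ 0) (hrel : 1728 * Δ = c4 ^ 3 - c6 ^ 2)
    (hss : ∀ p : ℕ, p.Prime → (p : ℤ) ∣ Δ → ¬ (p : ℤ) ∣ c4)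
    (ρ t : ℚ) (hρ : ρ ≠ 0) (ht : t ≠ 0)
    (hR : 9 * ρ ^ 4 - 26 * ρ ^ 3 + 24 * ρ ^ 2 - 6 * ρ - 1 + (3 * ρ ^ 2 - 13 * ρ ^ 3) * t - ρ ^ 3 * t ^ 2 = 0)
    (hj : (c4 : ℚ) ^ 3 * t = (Δ : ℚ) * (t ^ 2 + 10 * t + 5) ^ 3) : False :=
  NT.endgame c4 c6 Δ hΔ hrel hss t (NT.t_values ρ t hρ ht hR) hj

end Fermat.Agent.S51b
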