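/-
S51, TEAM β.  Final assembly of S51: a semistable Weierstrass curve over `ℤ` has irreducible
mod 3 or irreducible mod 5 representation.  Owner: helper11.
-/
import Mathlib
import Fermat.Agent.S51b.NT
import Fermat.Agent.S51b.Assembly

set_option autoImplicit false

namespace Fermat.Agent.S51b

open WeierstrassCurve

theorem main (W : WeierstrassCurve ℤ) (hΔ : W.Δ ≠ 0) (hW : W.IsSemistableModel) :
    W.ModRepIsIrreducible 3 ∨ W.ModRepIsIrreducible 5 := by
  by_contra h
  obtain ⟨ρ, t, hρ, ht, hR, hj⟩ := exists_invariants W hΔ h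
  exact nt_main W.c₄ W.c₆ W.Δ hΔ W.c_relation hW ρ t hρ ht hR hj

end Fermat.Agent.S51b
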