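/-
S51, TEAM β.  Finiteness and cardinality bounds for the 3- and 5-torsion of a Weierstrass curve
over a field of characteristic zero (at most 9, resp. 25 points).
FROZEN STATEMENTS (do not change them).  All proofs are complete; the helper lemmas are
named `card_aux_*`.
-/
import Mathlib
import Fermat.Agent.S51b.Defs
import Fermat.Agent.S51b.Trans
import Fermat.Agent.S51b.Doubling
import Fermat.Agent.S51b.Torsion

set_option autoImplicit false

namespace Fermat.Agent.S51b

open WeierstrassCurve WeierstrassCurve.Affine Polynomial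

variable {F : Type*} [Field F] [DecidableEq F] {E : Affine F}

/-- General bound: a set `S` of points such that the `x`-coordinate of every nonzero member of `S`
is a root of a fixed nonzero polynomial `f` of degree at most `d` is finite, with at most
`2 * d + 1` elements (two nonzero points with the same `x`-coordinate are equal or opposite). -/
theorem card_aux_finite_ncard (f : F[X]) (hf : f ≠ 0) (d : ℕ) (hd : f.natDegree ≤ d)
    (S : Set E.Point) (hS : ∀ P ∈ S, P ≠ 0 → f.eval (xCoord P) = 0) :
    S.Finite ∧ S.ncard ≤ 2 * d + 1 := by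
  classical
  have hTS : ∀ P ∈ S \ {0}, P ≠ 0 ∧ f.eval (xCoord P) = 0 := by
    intro P hP
    exact ⟨hP.2, hS P hP.1 hP.2⟩
  have himage : ∀ P ∈ S \ {0}, xCoord P ∈ f.roots.toFinset := by
    intro P hP
    rw [Multiset.mem_toFinset, Polynomial.mem_roots hf]
    exact (hTS P hP).2
  have hfib : ∀ P ∈ S \ {0}, ∀ Q ∈ S \ {0}, xCoord Q = xCoord P → Q = P ∨ Q = -P := by
    intro P hP Q hQ h
    exact (xCoord_eq_iff (hTS Q hQ).1 (hTS P hP).1).1 h
  have hTfin : (S \ {0}).Finite := by
    refine Set.Finite.of_finite_fibers xCoord ?_ ?_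
    · refine (f.roots.toFinset.finite_toSet).subset ?_
      rintro x ⟨P, hP, rfl⟩
      exact himage P hP
    · rintro x ⟨P, hP, rfl⟩
      refine (Set.toFinite {P, -P}).subset ?_
      rintro Q ⟨hQ, hQx⟩
      rcases hfib P hP Q hQ hQx with h | h
      · exact Or.inl h
      · exact Or.inr h
  have hcard : hTfin.toFinset.card ≤ 2 * f.roots.toFinset.card := by
    refine Finset.card_le_mul_card_image_of_maps_to (f := xCoord) ?_ 2 ?_
    · intro P hP
      exact himage P (hTfin.mem_toFinset.1 hP)
    · intro b hb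
      by_cases hne : (hTfin.toFinset.filter (fun a => xCoord a = b)).Nonempty
      · obtain ⟨P, hP⟩ := hne
        rw [Finset.mem_filter, Set.Finite.mem_toFinset] at hP
        refine (Finset.card_le_card ?_).trans (Finset.card_le_two (a := P) (b := -P))
        intro Q hQ
        rw [Finset.mem_filter, Set.Finite.mem_toFinset] at hQ
        rw [Finset.mem_insert, Finset.mem_singleton]
        exact hfib P hP.1 Q hQ.1 (hQ.2.trans hP.2.symm)
      · rw [Finset.not_nonempty_iff_eq_empty] at hne
        rw [hne]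
        simp
  have hroots : f.roots.toFinset.card ≤ d :=
    (Multiset.toFinset_card_le _).trans ((Polynomial.card_roots' f).trans hd)
  have hsub : S ⊆ insert 0 (S \ {0}) := by
    intro P hP
    by_cases h0 : P = 0
    · exact Or.inl h0
    · exact Or.inr ⟨hP, h0⟩
  have hfin' : (insert 0 (S \ {0})).Finite := hTfin.insert 0
  refine ⟨hfin'.subset hsub, ?_⟩
  calc S.ncard ≤ (insert 0 (S \ {0})).ncard := Set.ncard_le_ncard hsub hfin'
    _ ≤ (S \ {0}).ncard + 1 := Set.ncard_insert_le 0 (S \ {0})
    _ = hTfin.toFinset.card + 1 := by rw [Set.ncard_eq_toFinset_card (S \ {0}) hTfin]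
    _ ≤ 2 * d + 1 := by omega

/-- The `3`-torsion, as a set of points: finite with at most `9` elements. -/
theorem card_aux_three [CharZero F] :
    ((Submodule.torsionBy ℤ E.Point ((3 : ℕ) : ℤ) : Submodule ℤ E.Point) :
        Set E.Point).Finite ∧
      ((Submodule.torsionBy ℤ E.Point ((3 : ℕ) : ℤ) : Submodule ℤ E.Point) :
        Set E.Point).ncard ≤ 2 * 4 + 1 := by
  have h3 : (3 : F) ≠ 0 := by norm_num
  refine card_aux_finite_ncard E.Ψ₃ (E.Ψ₃_ne_zero h3) 4 E.natDegree_Ψ₃_le _ ?_
  intro P hP hP0
  rw [SetLike.mem_coe, Submodule.mem_torsionBy_iff] at hP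
  exact Ψ₃_eval_xCoord hP0 (by simpa using hP)

/-- The `5`-torsion, as a set of points: finite with at most `25` elements. -/
theorem card_aux_five [CharZero F] :
    ((Submodule.torsionBy ℤ E.Point ((5 : ℕ) : ℤ) : Submodule ℤ E.Point) :
        Set E.Point).Finite ∧
      ((Submodule.torsionBy ℤ E.Point ((5 : ℕ) : ℤ) : Submodule ℤ E.Point) :
        Set E.Point).ncard ≤ 2 * 12 + 1 := by
  have h5 : ((5 : ℕ) : F) ≠ 0 := by norm_num
  have hdeg : (E.preΨ' 5).natDegree ≤ 12 := by
    refine (E.natDegree_preΨ'_le 5).trans ?_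
    have h : ¬ Even 5 := by decide
    rw [if_neg h]
    norm_num
  refine card_aux_finite_ncard (E.preΨ' 5) (E.preΨ'_ne_zero h5) 12 hdeg _ ?_
  intro P hP hP0
  rw [SetLike.mem_coe, Submodule.mem_torsionBy_iff] at hP
  exact preΨ'_five_eval_xCoord hP0 (by simpa using hP)

theorem finite_torsion_three [CharZero F] :
    Finite (Submodule.torsionBy ℤ E.Point ((3 : ℕ) : ℤ)) := by
  have h := (card_aux_three (E := E)).1
  exact Set.finite_coe_iff.2 h

theorem card_torsion_three_le [CharZero F] :
    Nat.card (Submodule.torsionBy ℤ E.Point ((3 : ℕ) : ℤ)) ≤ 3 ^ 2 := by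
  have h := (card_aux_three (E := E)).2
  rw [← Nat.card_coe_set_eq] at h
  exact h

theorem finite_torsion_five [CharZero F] :
    Finite (Submodule.torsionBy ℤ E.Point ((5 : ℕ) : ℤ)) := by
  have h := (card_aux_five (E := E)).1
  exact Set.finite_coe_iff.2 h

theorem card_torsion_five_le [CharZero F] :
    Nat.card (Submodule.torsionBy ℤ E.Point ((5 : ℕ) : ℤ)) ≤ 5 ^ 2 := by
  have h := (card_aux_five (E := E)).2
  rw [← Nat.card_coe_set_eq] at h
  exact h

end Fermat.Agent.S51b
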