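/-
S51, TEAM β.  Existence of nonzero 3- and 5-torsion points over an algebraically closed field of
characteristic zero.
FROZEN STATEMENTS (do not change them; only replace the `sorry`s; add helper lemmas freely).
-/
import Mathlib
import Fermat.Agent.S51b.Defs
import Fermat.Agent.S51b.Trans
import Fermat.Agent.S51b.Doubling
import Fermat.Agent.S51b.Torsion

set_option autoImplicit false

namespace Fermat.Agent.S51b

open WeierstrassCurve WeierstrassCurve.Affine Polynomial

/-- A polynomial of positive `natDegree` over an algebraically closed field has a root. -/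
theorem exists_aux_root {K : Type*} [Field K] [IsAlgClosed K] (p : K[X])
    (hp : 0 < p.natDegree) : ∃ x : K, p.eval x = 0 := by
  have hdeg : p.degree ≠ 0 := by
    intro h0
    have h1 : p.natDegree = 0 := natDegree_eq_zero_iff_degree_le_zero.mpr h0.le
    omega
  obtain ⟨x, hx⟩ := IsAlgClosed.exists_root p hdeg
  exact ⟨x, hx⟩

variable {F : Type*} [Field F] [DecidableEq F] {E : Affine F}

-- `[DecidableEq F]` is part of the frozen signature, although the proof does not need it.
set_option linter.unusedSectionVars false in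
theorem exists_point_of_x [IsAlgClosed F] (hΔ : E.Δ ≠ 0) (x : F) :
    ∃ P : E.Point, P ≠ 0 ∧ xCoord P = x := by
  -- the Weierstrass equation at `x`, viewed as a monic quadratic polynomial in `y`
  set q : F[X] :=
    X ^ 2 + C (E.a₁ * x + E.a₃) * X - C (x ^ 3 + E.a₂ * x ^ 2 + E.a₄ * x + E.a₆) with hq
  have hqdeg : q.natDegree = 2 := by
    rw [hq]
    compute_degree!
  obtain ⟨y, hy⟩ := exists_aux_root q (by rw [hqdeg]; norm_num)
  have hy' : y ^ 2 + (E.a₁ * x + E.a₃) * y - (x ^ 3 + E.a₂ * x ^ 2 + E.a₄ * x + E.a₆) = 0 := by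
    simpa [hq] using hy
  have heq : E.Equation x y := by
    rw [Affine.equation_iff]
    linear_combination hy'
  have hns : E.Nonsingular x y := (Affine.equation_iff_nonsingular_of_Δ_ne_zero hΔ).mp heq
  exact ⟨Point.some x y hns, Point.some_ne_zero hns, rfl⟩

theorem exists_three_torsion [IsAlgClosed F] [CharZero F] (hΔ : E.Δ ≠ 0) :
    ∃ P : E.Point, P ≠ 0 ∧ (3 : ℤ) • P = 0 := by
  have h3 : (3 : F) ≠ 0 := by norm_num
  have hdeg : 0 < E.Ψ₃.natDegree := by
    rw [WeierstrassCurve.natDegree_Ψ₃ E h3]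
    norm_num
  obtain ⟨x, hx⟩ := exists_aux_root E.Ψ₃ hdeg
  obtain ⟨P, hP, hPx⟩ := exists_point_of_x hΔ x
  exact ⟨P, hP, three_zsmul_eq_zero hΔ hP (by rw [hPx]; exact hx)⟩

theorem exists_five_torsion [IsAlgClosed F] [CharZero F] (hΔ : E.Δ ≠ 0) :
    ∃ P : E.Point, P ≠ 0 ∧ (5 : ℤ) • P = 0 := by
  have h5 : ((5 : ℕ) : F) ≠ 0 := by norm_num
  have hdeg : 0 < (E.preΨ' 5).natDegree :=
    WeierstrassCurve.natDegree_preΨ'_pos E (by norm_num) h5
  obtain ⟨x, hx⟩ := exists_aux_root (E.preΨ' 5) hdeg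
  obtain ⟨P, hP, hPx⟩ := exists_point_of_x hΔ x
  exact ⟨P, hP, five_zsmul_eq_zero hΔ hP (by rw [hPx]; exact hx)⟩

end Fermat.Agent.S51b
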