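/-
S51, TEAM β.  Abstract linear algebra: a proper nonzero subspace of a vector space over `ZMod p`
with at most `p ^ 2` elements is generated by one nonzero vector.
FROZEN STATEMENT (do not change it; helper lemmas may be added freely).  Proof complete.
-/
import Mathlib

set_option autoImplicit false

namespace Fermat.Agent.S51b

theorem exists_generator (p : ℕ) [Fact p.Prime] {M : Type*} [AddCommGroup M] [Module (ZMod p) M]
    [Finite M] (hcard : Nat.card M ≤ p ^ 2) (N : Submodule (ZMod p) M) (hbot : N ≠ ⊥)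
    (htop : N ≠ ⊤) :
    ∃ P ∈ N, P ≠ 0 ∧ ∀ Q ∈ N, ∃ k : ℕ, Q = k • P := by
  have hp : p.Prime := Fact.out
  have : Module.Finite (ZMod p) M := Module.Finite.of_finite
  -- the cardinality of `M` is `p ^ finrank`, hence `finrank M ≤ 2`
  have h1 : Nat.card M = p ^ Module.finrank (ZMod p) M := by
    rw [Module.natCard_eq_pow_finrank (K := ZMod p), Nat.card_zmod]
  have h2 : Module.finrank (ZMod p) M ≤ 2 := by
    rw [h1] at hcard
    exact (Nat.pow_le_pow_iff_right hp.one_lt).1 hcard
  -- `N` is proper and nonzero, hence of dimension exactly one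
  have h3 : Module.finrank (ZMod p) N < Module.finrank (ZMod p) M := Submodule.finrank_lt htop
  have h4 : Module.finrank (ZMod p) N ≠ 0 := fun h0 => hbot (Submodule.finrank_eq_zero.1 h0)
  have h5 : Module.finrank (ZMod p) N = 1 := by omega
  obtain ⟨v, hv, hw⟩ := finrank_eq_one_iff'.1 h5
  refine ⟨v.1, v.2, fun h => hv (Subtype.ext h), ?_⟩
  intro Q hQ
  obtain ⟨c, hc⟩ := hw ⟨Q, hQ⟩
  refine ⟨c.val, ?_⟩
  have hQ' : c • (v : M) = Q := congrArg Subtype.val hc
  rw [← hQ', ← Nat.cast_smul_eq_nsmul (ZMod p), ZMod.natCast_zmod_val]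

end Fermat.Agent.S51b
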