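/-
S51, TEAM β.  From reducibility of the mod 3 and mod 5 representations to Galois-stable cyclic
subgroups of order 3 and 5 (generated by points `Q` and `P`).
FROZEN STATEMENTS (`exists_stable_line`, `exists_points`: do not change them); all proofs are
complete.  Helper lemmas of this file are prefixed `stable_`.
-/
import Mathlib
import Fermat.Agent.S51b.Defs
import Fermat.Agent.S51b.Exists
import Fermat.Agent.S51b.Card
import Fermat.Agent.S51b.Lin
import Fermat.Agent.S51b.Galois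

set_option autoImplicit false

namespace Fermat.Agent.S51b

open WeierstrassCurve WeierstrassCurve.Affine WeierstrassCurve.Affine.Point

/-- Reduction of a natural multiple modulo the order. -/
theorem stable_aux_nsmul_mod {A : Type*} [AddCommGroup A] {Q : A} {n : ℕ} (hn : n • Q = 0)
    (k : ℕ) : k • Q = (k % n) • Q := by
  conv_lhs => rw [← Nat.div_add_mod k n, add_nsmul, mul_nsmul, hn, nsmul_zero, zero_add]

/-- A nonzero multiple of an element killed by `3` is `± Q`. -/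
theorem stable_aux_three {A : Type*} [AddCommGroup A] {Q R : A} (h3 : (3 : ℤ) • Q = 0)
    (hR : R ≠ 0) {k : ℕ} (hk : R = k • Q) : R = Q ∨ R = -Q := by
  have h3' : (3 : ℕ) • Q = 0 := by
    rw [← natCast_zsmul, Nat.cast_ofNat]
    exact h3
  rw [stable_aux_nsmul_mod h3' k] at hk
  have hlt : k % 3 < 3 := Nat.mod_lt _ (by norm_num)
  interval_cases k % 3
  · exact absurd (by rw [hk, zero_nsmul]) hR
  · left
    rw [hk, one_nsmul]
  · right
    rw [hk]
    apply eq_neg_of_add_eq_zero_left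
    rw [← succ_nsmul]
    exact h3'

/-- A nonzero multiple of an element killed by `5` is `± P` or `± 2 P`. -/
theorem stable_aux_five {A : Type*} [AddCommGroup A] {P R : A} (h5 : (5 : ℤ) • P = 0)
    (hR : R ≠ 0) {k : ℕ} (hk : R = k • P) :
    R = P ∨ R = -P ∨ R = (2 : ℤ) • P ∨ R = -((2 : ℤ) • P) := by
  have h5' : (5 : ℕ) • P = 0 := by
    rw [← natCast_zsmul, Nat.cast_ofNat]
    exact h5
  have h2 : (2 : ℤ) • P = (2 : ℕ) • P := by
    rw [← natCast_zsmul, Nat.cast_ofNat]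
  rw [stable_aux_nsmul_mod h5' k] at hk
  have hlt : k % 5 < 5 := Nat.mod_lt _ (by norm_num)
  interval_cases k % 5
  · exact absurd (by rw [hk, zero_nsmul]) hR
  · left
    rw [hk, one_nsmul]
  · right; right; left
    rw [hk, h2]
  · right; right; right
    rw [hk, h2]
    apply eq_neg_of_add_eq_zero_left
    rw [← add_nsmul]
    exact h5'
  · right; left
    rw [hk]
    apply eq_neg_of_add_eq_zero_left
    rw [← succ_nsmul]
    exact h5'

/-- If the mod `p` representation is reducible (and the `p`-torsion is nontrivial with at most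
`p ^ 2` elements), there is a nonzero `p`-torsion point `P` generating a Galois-stable line. -/
theorem exists_stable_line (W' : Affine ℚ) (p : ℕ) [Fact p.Prime]
    (hfin : Finite (Submodule.torsionBy ℤ (W'⁄(AlgebraicClosure ℚ)).Point ((p : ℕ) : ℤ)))
    (hcard : Nat.card (Submodule.torsionBy ℤ (W'⁄(AlgebraicClosure ℚ)).Point ((p : ℕ) : ℤ))
      ≤ p ^ 2)
    (hex : ∃ P : (W'⁄(AlgebraicClosure ℚ)).Point, P ≠ 0 ∧ (p : ℤ) • P = 0)
    (h : ¬ GaloisRepIsIrreducible (K := AlgebraicClosure ℚ) ℚ W' p) :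
    ∃ P : (W'⁄(AlgebraicClosure ℚ)).Point, P ≠ 0 ∧ (p : ℤ) • P = 0 ∧
      ∀ σ : AlgebraicClosure ℚ ≃ₐ[ℚ] AlgebraicClosure ℚ, ∃ k : ℕ, σ • P = k • P := by
  obtain ⟨P, hP0, hP⟩ := hex
  -- the `p`-torsion is nontrivial
  have hnt : Nontrivial
      (Submodule.torsionBy ℤ (W'⁄(AlgebraicClosure ℚ)).Point ((p : ℕ) : ℤ)) := by
    refine ⟨⟨⟨P, (Submodule.mem_torsionBy_iff _ _).mpr hP⟩, 0, ?_⟩⟩
    intro h0
    exact hP0 (congrArg Subtype.val h0)
  -- hence reducibility gives a proper nonzero Galois-stable subspace `N`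
  unfold GaloisRepIsIrreducible at h
  rw [not_and] at h
  obtain ⟨N, hN'⟩ := not_forall.mp (h hnt)
  obtain ⟨hN, hN''⟩ := Classical.not_imp.mp hN'
  obtain ⟨hbot, htop⟩ := not_or.mp hN''
  have := hfin
  -- `N` is a line, generated by `P₀`
  obtain ⟨P₀, hP₀N, hP₀0, hgen⟩ := exists_generator p hcard N hbot htop
  refine ⟨(P₀ : (W'⁄(AlgebraicClosure ℚ)).Point), ?_, ?_, ?_⟩
  · intro h0
    exact hP₀0 (Subtype.ext h0)
  · exact (Submodule.mem_torsionBy_iff _ _).mp P₀.2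
  · intro σ
    obtain ⟨k, hk⟩ := hgen (σ • P₀) (hN σ P₀ hP₀N)
    refine ⟨k, ?_⟩
    have hk' := congrArg Subtype.val hk
    rw [AddSubmonoidClass.coe_nsmul] at hk'
    exact hk'

theorem exists_points (W' : Affine ℚ) (hΔ : (W'⁄(AlgebraicClosure ℚ)).Δ ≠ 0)
    (h3 : ¬ GaloisRepIsIrreducible (K := AlgebraicClosure ℚ) ℚ W' 3)
    (h5 : ¬ GaloisRepIsIrreducible (K := AlgebraicClosure ℚ) ℚ W' 5) :
    ∃ P Q : (W'⁄(AlgebraicClosure ℚ)).Point,
      P ≠ 0 ∧ (5 : ℤ) • P = 0 ∧ Q ≠ 0 ∧ (3 : ℤ) • Q = 0 ∧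
      (∀ σ : AlgebraicClosure ℚ ≃ₐ[ℚ] AlgebraicClosure ℚ, σ • Q = Q ∨ σ • Q = -Q) ∧
      (∀ σ : AlgebraicClosure ℚ ≃ₐ[ℚ] AlgebraicClosure ℚ,
        σ • P = P ∨ σ • P = -P ∨ σ • P = (2 : ℤ) • P ∨ σ • P = -((2 : ℤ) • P)) := by
  have hp3 : Fact (Nat.Prime 3) := ⟨by norm_num⟩
  have hp5 : Fact (Nat.Prime 5) := ⟨by norm_num⟩
  have hex3 : ∃ P : (W'⁄(AlgebraicClosure ℚ)).Point, P ≠ 0 ∧ ((3 : ℕ) : ℤ) • P = 0 := by
    obtain ⟨P, hP0, hP⟩ := exists_three_torsion (E := W'⁄(AlgebraicClosure ℚ)) hΔ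
    exact ⟨P, hP0, by rw [Nat.cast_ofNat]; exact hP⟩
  have hex5 : ∃ P : (W'⁄(AlgebraicClosure ℚ)).Point, P ≠ 0 ∧ ((5 : ℕ) : ℤ) • P = 0 := by
    obtain ⟨P, hP0, hP⟩ := exists_five_torsion (E := W'⁄(AlgebraicClosure ℚ)) hΔ
    exact ⟨P, hP0, by rw [Nat.cast_ofNat]; exact hP⟩
  obtain ⟨Q, hQ0, hQ3, hQσ⟩ := exists_stable_line W' 3
    (finite_torsion_three (E := W'⁄(AlgebraicClosure ℚ)))
    (card_torsion_three_le (E := W'⁄(AlgebraicClosure ℚ))) hex3 h3
  obtain ⟨P, hP0, hP5, hPσ⟩ := exists_stable_line W' 5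
    (finite_torsion_five (E := W'⁄(AlgebraicClosure ℚ)))
    (card_torsion_five_le (E := W'⁄(AlgebraicClosure ℚ))) hex5 h5
  have hQ3' : (3 : ℤ) • Q = 0 := by
    rw [Nat.cast_ofNat] at hQ3
    exact hQ3
  have hP5' : (5 : ℤ) • P = 0 := by
    rw [Nat.cast_ofNat] at hP5
    exact hP5
  refine ⟨P, Q, hP0, hP5', hQ0, hQ3', ?_, ?_⟩
  · intro σ
    obtain ⟨k, hk⟩ := hQσ σ
    exact stable_aux_three hQ3' (fun h0 => hQ0 ((smul_eq_zero_iff σ Q).mp h0)) hk
  · intro σ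
    obtain ⟨k, hk⟩ := hPσ σ
    exact stable_aux_five hP5' (fun h0 => hP0 ((smul_eq_zero_iff σ P).mp h0)) hk

end Fermat.Agent.S51b
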